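import Mathlib
import Fermat.Prelude.Def_EllipticCurve_FrobeniusTrace

/-!
# Existence of Frobenius elements in `Gal(ℚ̄/ℚ)`

For every valuation subring `A` of `AlgebraicClosure ℚ` lying over a prime `ℓ`, there is
`σ ∈ Gal(ℚ̄/ℚ)` which is a Frobenius element at `A`.
-/

set_option autoImplicit false

open scoped Pointwise

namespace Fermat.Agent.S54

/-- The field of algebraic numbers. -/
noncomputable abbrev Qb : Type := AlgebraicClosure ℚ

/-- The absolute Galois group of `ℚ`. -/
noncomputable abbrev GQ : Type := Qb ≃ₐ[ℚ] Qb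

/-- The ring of all algebraic integers. -/
noncomputable abbrev OQb : Subalgebra ℤ Qb := integralClosure ℤ Qb

theorem instIsAlgebraicQb : Algebra.IsAlgebraic ℚ Qb := AlgebraicClosure.isAlgebraic ℚ

attribute [local instance] instIsAlgebraicQb

theorem instIsAlgClosureQb : IsAlgClosure ℚ Qb := ⟨inferInstance, inferInstance⟩

attribute [local instance] instIsAlgClosureQb

theorem instNormalQb : Normal ℚ Qb := IsAlgClosure.normal ℚ Qb

attribute [local instance] instNormalQb

theorem instIsGaloisQb : IsGalois ℚ Qb where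

attribute [local instance] instIsGaloisQb

/-- The Galois action on algebraic integers. -/
@[reducible] noncomputable def actOQb : MulSemiringAction GQ OQb where
  smul σ b := ⟨σ b.1, b.2.map σ⟩
  one_smul _ := Subtype.ext rfl
  mul_smul _ _ _ := Subtype.ext rfl
  smul_zero σ := Subtype.ext (map_zero σ)
  smul_add σ a b := Subtype.ext (map_add σ a.1 b.1)
  smul_one σ := Subtype.ext (map_one σ)
  smul_mul σ a b := Subtype.ext (map_mul σ a.1 b.1)

attribute [local instance] actOQb

theorem coe_smul_OQb (σ : GQ) (b : OQb) : ((σ • b : OQb) : Qb) = σ (b : Qb) := rfl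

theorem smulCommOQb : SMulCommClass GQ ℤ OQb where
  smul_comm σ n b := Subtype.ext (by
    rw [coe_smul_OQb]
    change σ (n • (b : Qb)) = n • σ (b : Qb)
    exact map_zsmul σ n (b : Qb))

attribute [local instance] smulCommOQb

theorem isInvariantOQb : Algebra.IsInvariant ℤ OQb GQ where
  isInvariant b hb := by
    have h1 : (b : Qb) ∈ IntermediateField.fixedField
        (⊥ : IntermediateField ℚ Qb).fixingSubgroup := by
      rintro ⟨g, -⟩
      exact congrArg Subtype.val (hb g)
    rw [InfiniteGalois.fixedField_fixingSubgroup, IntermediateField.mem_bot] at h1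
    obtain ⟨r, hr⟩ := h1
    have h2 : IsIntegral ℤ r := by
      have := b.2
      rw [← hr] at this
      exact (isIntegral_algebraMap_iff (FaithfulSMul.algebraMap_injective ℚ Qb)).1 this
    obtain ⟨n, hn⟩ := IsIntegrallyClosed.isIntegral_iff.1 h2
    refine ⟨n, Subtype.ext ?_⟩
    rw [← hr, ← hn]
    simp


/-- The discrete topology on the ring of algebraic integers. -/
@[reducible] def topOQb : TopologicalSpace OQb := ⊥

attribute [local instance] topOQb

theorem discreteOQb : DiscreteTopology OQb := ⟨rfl⟩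

attribute [local instance] discreteOQb

theorem contSMulOQb : ContinuousSMul GQ OQb := by
  rw [continuousSMul_iff_stabilizer_isOpen]
  intro b
  have h := stabilizer_isOpen_of_isIntegral (K := ℚ) (L := Qb) (b : Qb)
  convert h using 1
  ext g
  simp only [SetLike.mem_coe, MulAction.mem_stabilizer_iff]
  exact Subtype.ext_iff

attribute [local instance] contSMulOQb

section place

variable (A : ValuationSubring Qb)

theorem valuation_le_one_of_mem_OQb (b : OQb) : A.valuation (b : Qb) ≤ 1 := by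
  rw [ValuationSubring.valuation_le_one_iff]
  have h1 : IsIntegral A (b : Qb) := b.2.tower_top
  obtain ⟨y, hy⟩ := IsIntegrallyClosed.isIntegral_iff.1 h1
  rw [← hy]
  exact y.2

/-- The prime ideal of the ring of algebraic integers cut out by a valuation subring. -/
def centerOQb : Ideal OQb where
  carrier := {b | A.valuation (b : Qb) < 1}
  add_mem' := fun {a b} ha hb =>
    lt_of_le_of_lt (A.valuation.map_add (a : Qb) (b : Qb)) (max_lt ha hb)
  zero_mem' := by
    change A.valuation ((0 : OQb) : Qb) < 1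
    simp
  smul_mem' := fun c x hx => by
    change A.valuation ((c * x : OQb) : Qb) < 1
    rw [MulMemClass.coe_mul, map_mul]
    exact mul_lt_one_of_nonneg_of_lt_one_right (valuation_le_one_of_mem_OQb A c) zero_le hx

theorem mem_centerOQb_iff (b : OQb) : b ∈ centerOQb A ↔ A.valuation (b : Qb) < 1 := Iff.rfl

theorem centerOQb_isPrime : (centerOQb A).IsPrime where
  ne_top' := by
    rw [Ideal.ne_top_iff_one]
    intro h
    rw [mem_centerOQb_iff] at h
    simp at h
  mem_or_mem' := by
    intro x y hxy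
    rw [mem_centerOQb_iff] at hxy ⊢
    rw [mem_centerOQb_iff]
    rw [MulMemClass.coe_mul, map_mul] at hxy
    by_contra hcon
    rw [not_or, not_lt, not_lt] at hcon
    have hx : A.valuation (x : Qb) = 1 := le_antisymm (valuation_le_one_of_mem_OQb A x) hcon.1
    have hy : A.valuation (y : Qb) = 1 := le_antisymm (valuation_le_one_of_mem_OQb A y) hcon.2
    rw [hx, hy, one_mul] at hxy
    exact lt_irrefl _ hxy

attribute [local instance] centerOQb_isPrime

variable {A} in
theorem valuation_intCast_le_one (n : ℤ) : A.valuation ((n : ℤ) : Qb) ≤ 1 := by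
  rw [ValuationSubring.valuation_le_one_iff]
  exact intCast_mem A n

variable {ℓ : ℕ} [hℓ : Fact ℓ.Prime]

theorem centerOQb_under (hA : A.LiesOverPrime ℓ) :
    Ideal.span {(ℓ : ℤ)} = (centerOQb A).under ℤ := by
  have hmax : (Ideal.span {(ℓ : ℤ)}).IsMaximal :=
    PrincipalIdealRing.isMaximal_of_irreducible
      (Nat.prime_iff_prime_int.1 hℓ.out).irreducible
  refine hmax.eq_of_le (Ideal.IsPrime.ne_top inferInstance) ?_
  rw [Ideal.span_singleton_le_iff_mem, Ideal.under_def, Ideal.mem_comap, mem_centerOQb_iff]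
  have h1 : ((algebraMap ℤ OQb (ℓ : ℤ) : OQb) : Qb) = (ℓ : Qb) := by simp
  rw [h1]
  exact (ValuationSubring.mem_nonunits_iff A).1 hA


theorem charP_quot_centerOQb (hA : A.LiesOverPrime ℓ) : CharP (OQb ⧸ centerOQb A) ℓ := by
  rw [CharP.charP_iff_prime_eq_zero hℓ.out]
  have h1 : ((ℓ : ℕ) : OQb ⧸ centerOQb A) = Ideal.Quotient.mk (centerOQb A) ((ℓ : ℕ) : OQb) := by
    simp
  rw [h1, Ideal.Quotient.eq_zero_iff_mem, mem_centerOQb_iff]
  have h2 : (((ℓ : ℕ) : OQb) : Qb) = (ℓ : Qb) := by simp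
  rw [h2]
  exact (ValuationSubring.mem_nonunits_iff A).1 hA

theorem frobenius_quot_centerOQb_surjective (hA : A.LiesOverPrime ℓ) :
    haveI := charP_quot_centerOQb A hA
    Function.Surjective (frobenius (OQb ⧸ centerOQb A) ℓ) := by
  intro x
  obtain ⟨b, rfl⟩ := Ideal.Quotient.mk_surjective x
  obtain ⟨z, hz⟩ := IsAlgClosed.exists_pow_nat_eq (b : Qb) hℓ.out.pos
  have hzint : IsIntegral ℤ z := IsIntegral.of_pow hℓ.out.pos (hz ▸ b.2)
  refine ⟨Ideal.Quotient.mk _ ⟨z, hzint⟩, ?_⟩
  rw [frobenius_def, ← map_pow]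
  congr 1
  exact Subtype.ext hz


theorem exists_frob_OQb (hA : A.LiesOverPrime ℓ) :
    ∃ σ : GQ, σ • centerOQb A = centerOQb A ∧
      ∀ b : OQb, σ • b - b ^ ℓ ∈ centerOQb A := by
  have hchar := charP_quot_centerOQb A hA
  have : ExpChar (OQb ⧸ centerOQb A) ℓ := ExpChar.prime hℓ.out
  have hover : (centerOQb A).LiesOver (Ideal.span {(ℓ : ℤ)}) := ⟨centerOQb_under A hA⟩
  have hperf : PerfectRing (OQb ⧸ centerOQb A) ℓ :=
    PerfectRing.ofSurjective _ ℓ (frobenius_quot_centerOQb_surjective A hA)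
  have := isInvariantOQb
  let l : (OQb ⧸ centerOQb A) ≃ₐ[ℤ ⧸ Ideal.span {(ℓ : ℤ)}] (OQb ⧸ centerOQb A) :=
    { frobeniusEquiv (OQb ⧸ centerOQb A) ℓ with
      commutes' := fun r => by
        obtain ⟨n, rfl⟩ := Ideal.Quotient.mk_surjective r
        change frobenius (OQb ⧸ centerOQb A) ℓ _ = _
        have h1 : algebraMap (ℤ ⧸ Ideal.span {(ℓ : ℤ)}) (OQb ⧸ centerOQb A)
            (Ideal.Quotient.mk _ n) = ((n : ℤ) : OQb ⧸ centerOQb A) := by
          rw [Ideal.Quotient.algebraMap_mk_of_liesOver, eq_intCast (algebraMap ℤ OQb) n, map_intCast]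
        rw [h1, map_intCast] }
  obtain ⟨⟨σ, hσ⟩, hl⟩ := Ideal.Quotient.stabilizerHom_surjective_of_profinite (G := GQ)
    (Ideal.span {(ℓ : ℤ)}) (centerOQb A) l
  refine ⟨σ, hσ, fun b => ?_⟩
  rw [← Ideal.Quotient.eq, map_pow]
  have h2 := DFunLike.congr_fun hl (Ideal.Quotient.mk _ b)
  rw [Ideal.Quotient.stabilizerHom_apply] at h2
  exact h2

open Polynomial in
theorem exists_frac_aux (x : Qb) (hx : A.valuation x ≤ 1) :
    ∀ n : ℕ, ∀ f : OQb[X], f.natDegree ≤ n → aeval x f = 0 → (∃ i, f.coeff i ∉ centerOQb A) →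
      ∃ b s : OQb, s ∉ centerOQb A ∧ (s : Qb) * x = b := by
  intro n
  induction n with
  | zero =>
    intro f hdeg hf ⟨i, hi⟩
    exfalso
    rw [eq_C_of_natDegree_le_zero hdeg, aeval_C] at hf
    have h0 : f.coeff 0 = 0 := by
      apply Subtype.ext
      simpa using hf
    have hf0 : f = 0 := by rw [eq_C_of_natDegree_le_zero hdeg, h0, map_zero]
    apply hi
    rw [hf0, coeff_zero]
    exact Ideal.zero_mem _
  | succ n IH =>
    intro f hdeg hf ⟨i, hi⟩
    by_cases hlt : f.natDegree ≤ n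
    · exact IH f hlt hf ⟨i, hi⟩
    have hdeg' : f.natDegree = n + 1 := le_antisymm hdeg (by omega)
    have hint : IsIntegral OQb (f.leadingCoeff • x) := isIntegral_leadingCoeff_smul f x hf
    obtain ⟨a, ha⟩ := IsIntegrallyClosedIn.isIntegral_iff.1 hint
    have ha' : (a : Qb) = (f.leadingCoeff : Qb) * x := by
      rw [Algebra.smul_def] at ha
      exact ha
    by_cases hlc : f.leadingCoeff ∈ centerOQb A
    · -- the leading coefficient is in the center: lower the degree
      have haQ : a ∈ centerOQb A := by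
        rw [mem_centerOQb_iff, ha', map_mul]
        exact mul_lt_one_of_nonneg_of_lt_one_left zero_le ((mem_centerOQb_iff A _).1 hlc) hx
      refine IH (f.eraseLead + C a * X ^ n) ?_ ?_ ⟨i, ?_⟩
      · refine (natDegree_add_le _ _).trans (max_le ?_ ?_)
        · exact (eraseLead_natDegree_le f).trans (by omega)
        · exact natDegree_C_mul_X_pow_le a n
      · have h1 : aeval x f.eraseLead = - ((f.leadingCoeff : Qb) * x ^ (n + 1)) := by
          have h2 := congrArg (aeval x) (eraseLead_add_C_mul_X_pow f)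
          rw [hf, map_add, map_mul, aeval_C, map_pow, aeval_X, hdeg'] at h2
          rw [eq_neg_iff_add_eq_zero]
          exact h2
        rw [map_add, h1, map_mul, aeval_C, map_pow, aeval_X]
        change - ((f.leadingCoeff : Qb) * x ^ (n + 1)) + (a : Qb) * x ^ n = 0
        rw [ha']
        ring
      · have hi' : i ≠ f.natDegree := by
          rintro rfl
          exact hi hlc
        rw [coeff_add, eraseLead_coeff, if_neg hi', coeff_C_mul, coeff_X_pow]
        intro hmem
        apply hi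
        have h3 : a * (if i = n then 1 else 0) ∈ centerOQb A := Ideal.mul_mem_right _ _ haQ
        exact (Ideal.add_mem_iff_left _ h3).1 hmem
    · exact ⟨a, f.leadingCoeff, hlc, ha'.symm⟩


open Polynomial in
theorem intCast_mem_centerOQb_iff (hA : A.LiesOverPrime ℓ) (n : ℤ) :
    algebraMap ℤ OQb n ∈ centerOQb A ↔ (ℓ : ℤ) ∣ n := by
  rw [← Ideal.mem_span_singleton, centerOQb_under A hA, Ideal.under_def, Ideal.mem_comap]

open Polynomial in
theorem exists_poly (hA : A.LiesOverPrime ℓ) (x : Qb) :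
    ∃ f : OQb[X], aeval x f = 0 ∧ ∃ i, f.coeff i ∉ centerOQb A := by
  have halg : IsAlgebraic ℤ x :=
    (IsFractionRing.isAlgebraic_iff ℤ ℚ Qb).2 (Algebra.IsAlgebraic.isAlgebraic x)
  obtain ⟨p, hp0, hp⟩ := halg
  have hc0 : p.content ≠ 0 := by rwa [Ne, content_eq_zero_iff]
  have hprim : aeval x p.primPart = 0 := by
    have h1 := congrArg (aeval x) (eq_C_content_mul_primPart p)
    rw [hp, map_mul, aeval_C] at h1
    have h2 : algebraMap ℤ Qb p.content ≠ 0 := by
      simpa using hc0
    exact (mul_eq_zero.1 h1.symm).resolve_left h2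
  refine ⟨p.primPart.map (algebraMap ℤ OQb), ?_, ?_⟩
  · rw [aeval_map_algebraMap]
    exact hprim
  · by_contra hcon
    rw [not_exists] at hcon
    have hdvd : C (ℓ : ℤ) ∣ p.primPart := by
      rw [C_dvd_iff_dvd_coeff]
      intro i
      have := hcon i
      rw [not_not, coeff_map, intCast_mem_centerOQb_iff A hA] at this
      exact this
    have hunit := (isPrimitive_primPart p) _ hdvd
    exact (Nat.prime_iff_prime_int.1 hℓ.out).not_isUnit hunit


theorem valuation_eq_one_of_not_mem (s : OQb) (hs : s ∉ centerOQb A) :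
    A.valuation (s : Qb) = 1 :=
  le_antisymm (valuation_le_one_of_mem_OQb A s) (not_lt.1 hs)

theorem exists_frac (hA : A.LiesOverPrime ℓ) (x : Qb) (hx : A.valuation x ≤ 1) :
    ∃ b s : OQb, A.valuation (s : Qb) = 1 ∧ (s : Qb) * x = b := by
  obtain ⟨f, hf, hi⟩ := exists_poly A hA x
  obtain ⟨b, s, hs, h⟩ := exists_frac_aux A x hx f.natDegree f le_rfl hf hi
  exact ⟨b, s, valuation_eq_one_of_not_mem A s hs, h⟩

theorem smul_not_mem_center {τ : GQ} (hτ : τ • centerOQb A = centerOQb A) (s : OQb)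
    (hs : s ∉ centerOQb A) : τ • s ∉ centerOQb A := by
  intro h
  rw [← hτ, Ideal.mem_pointwise_smul_iff_inv_smul_mem, inv_smul_smul] at h
  exact hs h

theorem valuation_map_le_one (hA : A.LiesOverPrime ℓ) {τ : GQ}
    (hτ : τ • centerOQb A = centerOQb A) (x : Qb) (hx : A.valuation x ≤ 1) :
    A.valuation (τ x) ≤ 1 := by
  obtain ⟨b, s, hs, h⟩ := exists_frac A hA x hx
  have hs' : s ∉ centerOQb A := by
    rw [mem_centerOQb_iff, hs]; exact lt_irrefl _
  have h1 : A.valuation ((τ • s : OQb) : Qb) = 1 :=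
    valuation_eq_one_of_not_mem A _ (smul_not_mem_center A hτ s hs')
  have h2 : τ (s : Qb) * τ x = τ (b : Qb) := by rw [← map_mul, h]
  have h3 := congrArg A.valuation h2
  rw [map_mul, ← coe_smul_OQb, h1, one_mul] at h3
  rw [h3, ← coe_smul_OQb]
  exact valuation_le_one_of_mem_OQb A _

theorem smul_eq_self_of_center (hA : A.LiesOverPrime ℓ) {σ : GQ}
    (hσ : σ • centerOQb A = centerOQb A) : σ • A = A := by
  have hσ' : σ⁻¹ • centerOQb A = centerOQb A := by
    conv_lhs => rw [← hσ]
    rw [inv_smul_smul]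
  apply SetLike.ext
  intro x
  rw [ValuationSubring.mem_pointwise_smul_iff_inv_smul_mem, ← ValuationSubring.valuation_le_one_iff,
    ← ValuationSubring.valuation_le_one_iff]
  constructor
  · intro h
    have := valuation_map_le_one A hA hσ _ h
    rwa [AlgEquiv.smul_def, ← AlgEquiv.mul_apply, mul_inv_cancel, AlgEquiv.one_apply] at this
  · intro h
    exact valuation_map_le_one A hA hσ' _ h


theorem valuation_frob_sub_lt_one (hA : A.LiesOverPrime ℓ) {σ : GQ}
    (hσ : σ • centerOQb A = centerOQb A)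
    (hfrob : ∀ b : OQb, σ • b - b ^ ℓ ∈ centerOQb A) (x : Qb) (hx : A.valuation x ≤ 1) :
    A.valuation (σ x - x ^ ℓ) < 1 := by
  obtain ⟨b, s, hs, h⟩ := exists_frac A hA x hx
  have hs' : s ∉ centerOQb A := by
    rw [mem_centerOQb_iff, hs]; exact lt_irrefl _
  have h1 : A.valuation ((σ • s : OQb) : Qb) = 1 :=
    valuation_eq_one_of_not_mem A _ (smul_not_mem_center A hσ s hs')
  have h2 : σ (s : Qb) * σ x = σ (b : Qb) := by rw [← map_mul, h]
  -- key identity
  have key : (σ (s : Qb) * (s : Qb) ^ ℓ) * (σ x - x ^ ℓ) =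
      (σ (b : Qb) - (b : Qb) ^ ℓ) * (s : Qb) ^ ℓ - (σ (s : Qb) - (s : Qb) ^ ℓ) * (b : Qb) ^ ℓ := by
    rw [← h2, ← h]
    ring
  have hb := (mem_centerOQb_iff A _).1 (hfrob b)
  have hsf := (mem_centerOQb_iff A _).1 (hfrob s)
  have hb' : A.valuation (σ (b : Qb) - (b : Qb) ^ ℓ) < 1 := hb
  have hs'' : A.valuation (σ (s : Qb) - (s : Qb) ^ ℓ) < 1 := hsf
  have hv := congrArg A.valuation key
  rw [map_mul, map_mul, map_pow, ← coe_smul_OQb, h1, hs, one_pow, one_mul, one_mul] at hv
  rw [hv]
  refine lt_of_le_of_lt (Valuation.map_sub _ _ _) (max_lt ?_ ?_)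
  · rw [map_mul, map_pow, hs, one_pow, mul_one]
    exact hb'
  · rw [map_mul, map_pow]
    exact mul_lt_one_of_nonneg_of_lt_one_left zero_le hs''
      (pow_le_one₀ zero_le (valuation_le_one_of_mem_OQb A b))

theorem exists_isFrobeniusAt (hA : A.LiesOverPrime ℓ) : ∃ σ : GQ, A.IsFrobeniusAt σ ℓ := by
  obtain ⟨σ, hσ, hfrob⟩ := exists_frob_OQb A hA
  have hdec : σ ∈ A.decompositionSubgroup ℚ := smul_eq_self_of_center A hA hσ
  refine ⟨σ, hdec, fun x => ?_⟩
  obtain ⟨a, rfl⟩ := IsLocalRing.residue_surjective x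
  rw [← IsLocalRing.ResidueField.residue_smul, ← map_pow, ← sub_eq_zero, ← map_sub,
    IsLocalRing.residue_eq_zero_iff, ValuationSubring.valuation_lt_one_iff]
  exact valuation_frob_sub_lt_one A hA hσ hfrob (a : Qb)
    ((ValuationSubring.valuation_le_one_iff A _).2 a.2)


end place

theorem exists_liesOverPrime (ℓ : ℕ) (hℓ : ℓ.Prime) :
    ∃ A : ValuationSubring Qb, A.LiesOverPrime ℓ := by
  let R : Subring Qb := (Int.castRingHom Qb).range
  let l : R := ⟨(ℓ : Qb), ⟨(ℓ : ℤ), by simp⟩⟩
  have hne : Ideal.span {l} ≠ ⊤ := by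
    rw [Ne, Ideal.span_singleton_eq_top]
    intro hu
    obtain ⟨⟨m, k, hk⟩, hm⟩ := isUnit_iff_exists_inv.1 hu
    have h1 : ((ℓ : Qb)) * m = 1 := congrArg Subtype.val hm
    rw [← hk] at h1
    have h2 : ((ℓ : ℤ) * k : ℤ) = 1 := by
      have : (((ℓ : ℤ) * k : ℤ) : Qb) = ((1 : ℤ) : Qb) := by
        push_cast
        simpa using h1
      exact Int.cast_injective this
    have h3 : (ℓ : ℤ) ∣ 1 := ⟨k, h2.symm⟩
    exact (Nat.prime_iff_prime_int.1 hℓ).not_isUnit (isUnit_of_dvd_one h3)
  obtain ⟨B, -, hB⟩ := Ideal.image_subset_nonunits_valuationSubring (Ideal.span {l}) hne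
  exact ⟨B, hB ⟨l, Ideal.subset_span rfl, rfl⟩⟩


end Fermat.Agent.S54
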